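import Fermat.Prelude.Def_CuspForm_Newforms
import Fermat.Agent.Newforms.AtkinLehner
import Fermat.Agent.Newforms.Eigen

/-!
# Newforms: existence, Atkin–Lehner signs, coefficients at primes exactly dividing the level

`Newforms` is Atkin–Lehner theory in weight two on `Γ₀(M)`: the Petersson product (`Petersson`),
semisimplicity away from the level (`Semisimple`), the main lemma on oldforms (`MainLemma`) and
this module.

* `eq_zero_of_eigen_at_lower_level`: the eigensystem of a newform does not occur at a proper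
  divisor of its level.
* `exists_newform`: away from the level, every normalised eigenform has the eigensystem of a newform
  of a level dividing its level.
* `newform_slash_al`, `qCoeff_sq_eq_one`: for a prime `q ∥ M`, `W_q` acts by `-a_q`, and `a_q = ±1`.

## References

* A. O. L. Atkin and J. Lehner, *Hecke operators on `Γ₀(m)`*, Math. Ann. (1970).
* D. Carlton, *On a result of Atkin and Lehner*, for the main lemma.
-/

set_option autoImplicit false

noncomputable section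

open CongruenceSubgroup ModularFormClass UpperHalfPlane
open scoped ModularForm

namespace Fermat.Agent.Newforms

/-- An eigenvector at level `R` for the `T_ℓ`, `ℓ ∤ M`, with eigenvalues those of `g`, makes the
eigensystem of `g` occur at level `R`. -/
lemma occursAt_of_eigen {M R : ℕ} [NeZero R] (g : CuspForm (Gamma0 M) 2)
    {h : CuspForm (Gamma0 R) 2} (hne : h ≠ 0)
    (hh : ∀ ℓ (hℓ : ℓ.Prime), ¬ ℓ ∣ M → hOp R hℓ h = qCoeff g ℓ • h) :
    CuspForm.GoodEigensystemOccursAt g R := by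
  obtain ⟨u, hu, hcoeff⟩ := exists_eigenform_of_eigen hne (fun ℓ => ¬ ℓ ∣ M) (qCoeff g) hh
  exact ⟨u, hu, hcoeff⟩

/-- The eigensystem of a newform has no eigenvector at a proper divisor of the level. -/
theorem eq_zero_of_eigen_at_lower_level {M R : ℕ} [NeZero M] [NeZero R]
    {g : CuspForm (Gamma0 M) 2} (hg : g.IsNewform) (hR : R ∣ M) (hne : R ≠ M)
    {h : CuspForm (Gamma0 R) 2}
    (hh : ∀ ℓ (hℓ : ℓ.Prime), ¬ ℓ ∣ M → hOp R hℓ h = qCoeff g ℓ • h) : h = 0 :=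
  by_contra fun h0 => hg.2 R hR hne
    (occursAt_of_eigen g h0 hh)

/-- An eigenvector of the `T_ℓ`, `ℓ ∤ M`, with `a₁ = 0` has `a_n = 0` for `n` prime to `M`. -/
lemma qCoeff_eq_zero_of_coprime {M : ℕ} [NeZero M] {f : CuspForm (Gamma0 M) 2} {lam : ℕ → ℂ}
    (h : ∀ ℓ (hℓ : ℓ.Prime), ¬ ℓ ∣ M → hOp M hℓ f = lam ℓ • f) (h1 : qCoeff f 1 = 0) :
    ∀ n : ℕ, n.Coprime M → qCoeff f n = 0 := by
  intro n
  induction n using Nat.strong_induction_on with
  | h n ih =>
    intro hn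
    rcases lt_or_ge n 2 with h2 | h2
    · interval_cases n
      · exact HeckeDuality.coeff_zero f
      · exact h1
    · set ℓ := n.minFac
      have hℓ : ℓ.Prime := Nat.minFac_prime (by omega)
      obtain ⟨m, hm⟩ : ℓ ∣ n := Nat.minFac_dvd n
      have hℓM : ¬ ℓ ∣ M := fun hc =>
        hℓ.ne_one (Nat.eq_one_of_dvd_coprimes hn (Nat.minFac_dvd n) hc)
      have hm0 : 0 < m := Nat.pos_of_ne_zero fun h0 => by subst h0; omega
      have hlt : m < n := hm ▸ lt_mul_of_one_lt_left hm0 hℓ.one_lt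
      have hmM : m.Coprime M := Nat.Coprime.coprime_dvd_left (hm ▸ dvd_mul_left m ℓ) hn
      have e := (hOp_eq_smul_iff hℓ f _).1 (h ℓ hℓ hℓM) m
      rw [ih m hlt hmM, mul_zero] at e
      rw [hm, mul_comm]
      by_cases hd : ℓ ∣ m
      · rwa [if_pos hd, ih (m / ℓ) (lt_of_le_of_lt (Nat.div_le_self _ _) hlt)
          (Nat.Coprime.coprime_dvd_left (Nat.div_dvd_of_dvd hd) hmM), mul_zero, add_zero] at e
      · rwa [if_neg hd, add_zero] at e

/-- The eigensystem of every normalised eigenform comes from a newform of a level dividing the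
level. -/
theorem exists_newform {N : ℕ} [NeZero N] {f : CuspForm (Gamma0 N) 2}
    (hf : f.IsNormalizedEigenform) :
    ∃ (M : ℕ) (g : CuspForm (Gamma0 M) 2), M ∣ N ∧ g.IsNewform ∧
      ∀ ℓ, ℓ.Prime → ¬ ℓ ∣ N → qCoeff g ℓ = qCoeff f ℓ := by
  classical
  have hex : ∃ M, M ∣ N ∧ CuspForm.GoodEigensystemOccursAt f M :=
    ⟨N, dvd_rfl, CuspForm.GoodEigensystemOccursAt.refl hf⟩
  obtain ⟨hMN, g, hg, hgf⟩ := Nat.find_spec hex
  refine ⟨_, g, hMN, ⟨hg, fun R hR hne ⟨u, hu, hug⟩ => ?_⟩, hgf⟩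
  refine Nat.find_min hex (lt_of_le_of_ne (Nat.le_of_dvd ?_ hR) hne) ⟨hR.trans hMN, u, hu, ?_⟩
  · exact Nat.pos_of_ne_zero fun h0 => NeZero.ne N (Nat.eq_zero_of_zero_dvd (h0 ▸ hMN))
  · exact fun ℓ hℓ hℓN => (hug ℓ hℓ fun hc => hℓN (hc.trans hMN)).trans (hgf ℓ hℓ hℓN)

/-- A newform of level `q R`, `q ∤ R`, is an eigenvector of `W_q` with eigenvalue `-a_q`. -/
theorem newform_slash_al {q R : ℕ} [NeZero R] [NeZero (q * R)] {g : CuspForm (Gamma0 (q * R)) 2}
    (hg : g.IsNewform) (hq : q.Prime) (hqR : ¬ q ∣ R) (D : ALData q R) :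
    ⇑g ∣[(2 : ℤ)] D.gl = (-qCoeff g q) • ⇑g := by
  set a_q := qCoeff g q with haq
  have hinv : ∀ γ ∈ Gamma0 (q * R), ⇑g ∣[(2 : ℤ)] γ = ⇑g := fun γ hγ => slash_gamma0_eq g hγ
  have hU : ModularForm.heckeU 2 q ⇑g = a_q • ⇑g := by
    have h := hOp_of_isNormalizedEigenform hg.1 hq
    rw [hOp_eq_heckeULin hq (dvd_mul_right q R)] at h
    exact congrArg DFunLike.coe h
  set G : ℍ → ℂ := ⇑g ∣[(2 : ℤ)] D.gl + a_q • ⇑g with hG
  have hGtrace : G = ⇑g ∣[(2 : ℤ)] D.gl +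
      ModularForm.heckeU 2 q ((⇑g ∣[(2 : ℤ)] D.gl) ∣[(2 : ℤ)] D.gl) := by
    rw [D.slash_gl_gl hinv, hU]
  obtain ⟨w, hw⟩ := D.gl_eq_ratGL
  have hcusp : IsCuspFn 2 G :=
    (hw ▸ (isCuspFn_cuspForm g).slash w).add ((isCuspFn_cuspForm g).smul a_q)
  let h : CuspForm (Gamma0 R) 2 := mkCusp G
    (fun γ hγ => by
      rw [hGtrace]
      exact trace_inv hq hqR D (fun δ hδ => D.slash_gl_inv hinv hδ) hγ) hcusp
  have h0 : h = 0 := by
    refine eq_zero_of_eigen_at_lower_level hg (dvd_mul_left R q)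
      (lt_mul_of_one_lt_left (Nat.pos_of_ne_zero (NeZero.ne R)) hq.one_lt).ne fun ℓ hℓ hℓM => ?_
    have : Fact ℓ.Prime := ⟨hℓ⟩
    have hT : ModularForm.heckeT 2 ℓ ⇑g = qCoeff g ℓ • ⇑g := by
      have h := hOp_of_isNormalizedEigenform hg.1 hℓ
      rw [hOp_eq_heckeTLin hℓ hℓM] at h
      exact congrArg DFunLike.coe h
    rw [hOp_eq_heckeTLin hℓ fun hc => hℓM (hc.trans (dvd_mul_left R q))]
    refine DFunLike.coe_injective ?_
    show ModularForm.heckeT 2 ℓ G = qCoeff g ℓ • G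
    rw [hG, ModularForm.heckeT_add, ModularForm.heckeT_smul, D.heckeT_slash_gl hℓM 2 hinv, hT,
      ModularForm.smul_slash, D.σ_gl, ContinuousAlgEquiv.refl_apply, smul_add, smul_comm a_q]
  have hW : ⇑g ∣[(2 : ℤ)] D.gl = (-a_q) • ⇑g := by
    have : G = 0 := by
      have := congrArg DFunLike.coe h0
      simpa [h] using this
    exact (eq_neg_of_add_eq_zero_left this).trans (neg_smul a_q ⇑g).symm
  exact hW

/-- `a_q = ±1` when `q` divides `M` exactly. -/
theorem qCoeff_sq_eq_one {M : ℕ} [NeZero M] {g : CuspForm (Gamma0 M) 2} (hg : g.IsNewform)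
    {q : ℕ} (hq : q.Prime) (hqM : q ∣ M) (hq2 : ¬ q ^ 2 ∣ M) : qCoeff g q ^ 2 = 1 := by
  obtain ⟨R, rfl⟩ := hqM
  have hqR : ¬ q ∣ R := fun h => hq2 (by rw [pow_two]; exact Nat.mul_dvd_mul_left q h)
  have : NeZero R := ⟨fun h => NeZero.ne (q * R) (by rw [h, mul_zero])⟩
  obtain ⟨a, b, hab⟩ := Nat.isCoprime_iff_coprime.2 (hq.coprime_iff_not_dvd.2 hqR)
  let D : ALData q R := ⟨hq.ne_zero, a, -b, 1, 1, by linear_combination hab⟩
  have hinv : ∀ γ ∈ Gamma0 (q * R), ⇑g ∣[(2 : ℤ)] γ = ⇑g := fun γ hγ => slash_gamma0_eq g hγ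
  set a_q := qCoeff g q with haq
  have hW := newform_slash_al hg hq hqR D
  have hsq : ⇑g = (a_q ^ 2) • ⇑g := by
    conv_lhs => rw [← D.slash_gl_gl hinv, hW, ModularForm.smul_slash, D.σ_gl,
      ContinuousAlgEquiv.refl_apply, hW]
    rw [smul_smul, neg_mul_neg, pow_two]
  have hne : ⇑g ≠ 0 := fun h0 => hg.ne_zero (DFunLike.coe_injective h0)
  refine smul_left_injective ℂ hne ?_
  show a_q ^ 2 • ⇑g = (1 : ℂ) • ⇑g
  rw [one_smul, ← hsq]

end Fermat.Agent.Newforms
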