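import Mathlib.Tactic

/-!
# The linear algebra behind the Atkin–Lehner main lemma (after Carlton)

Finitely many pairwise commuting finite subgroups `G p`, normalised by `K`, act on a vector space;
`t p ∈ G p` has `(t p) ^ (n p) = 1`, and a vector fixed by `H p ≤ K ⊓ G p` and by `t p` is fixed by
`G p`. A `K`-fixed vector killed by the product of the `1 - π p`, `π p` the average over the first
`n p` powers of `t p`, is a sum of vectors fixed by `K` and by one of the `G p`.
-/

set_option autoImplicit false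

noncomputable section

namespace Fermat.Agent.Newforms

variable {W V : Type*} [Group W] [AddCommGroup V] [Module ℂ V] (ρ : W →* Module.End ℂ V)

lemma rho_mul_apply (x y : W) (v : V) : ρ (x * y) v = ρ x (ρ y v) := by
  rw [map_mul, Module.End.mul_apply]

lemma rho_inv_apply_of_fixed {x : W} {v : V} (h : ρ x v = v) : ρ x⁻¹ v = v := by
  conv_lhs => rw [← h]
  rw [← rho_mul_apply, inv_mul_cancel, map_one, Module.End.one_apply]

/-- Average over a finite subgroup. -/
def avgSub (G : Subgroup W) [Fintype G] : Module.End ℂ V :=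
  (Fintype.card G : ℂ)⁻¹ • ∑ g : G, ρ g

/-- Average over the first `n` powers of an element. -/
def avgPow (n : ℕ) (t : W) : Module.End ℂ V :=
  (n : ℂ)⁻¹ • ∑ j ∈ Finset.range n, ρ (t ^ j)

section avg

variable (G : Subgroup W) [Fintype G]

lemma avgSub_fixed {v : V} (h : ∀ g ∈ G, ρ g v = v) : avgSub ρ G v = v := by
  have hc : (Fintype.card G : ℂ) ≠ 0 := Nat.cast_ne_zero.2 Fintype.card_ne_zero
  rw [avgSub, LinearMap.smul_apply, LinearMap.sum_apply,
    Finset.sum_congr rfl fun g _ => h g.1 g.2, Finset.sum_const, Finset.card_univ,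
    ← Nat.cast_smul_eq_nsmul ℂ, smul_smul, inv_mul_cancel₀ hc, one_smul]

lemma rho_avgSub {g : W} (hg : g ∈ G) (v : V) : ρ g (avgSub ρ G v) = avgSub ρ G v := by
  simp only [avgSub, LinearMap.smul_apply, LinearMap.sum_apply, map_smul, map_sum,
    ← rho_mul_apply]
  congr 1
  exact Equiv.sum_comp (Equiv.mulLeft (⟨g, hg⟩ : G)) (fun x : G => ρ (x : W) v)

lemma avgSub_comm {k : W} (hk : ∀ g ∈ G, k * g * k⁻¹ ∈ G) (hk' : ∀ g ∈ G, k⁻¹ * g * k ∈ G)
    (v : V) : ρ k (avgSub ρ G v) = avgSub ρ G (ρ k v) := by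
  simp only [avgSub, LinearMap.smul_apply, LinearMap.sum_apply, map_smul, map_sum,
    ← rho_mul_apply]
  congr 1
  let e : G ≃ G :=
    { toFun := fun g => ⟨k * g * k⁻¹, hk g g.2⟩
      invFun := fun g => ⟨k⁻¹ * g * k, hk' g g.2⟩
      left_inv := fun g => Subtype.ext (by simp [mul_assoc])
      right_inv := fun g => Subtype.ext (by simp [mul_assoc]) }
  conv_rhs => rw [← Equiv.sum_comp e]
  refine Finset.sum_congr rfl fun g _ => ?_
  simp [e, mul_assoc]

end avg

lemma rho_avgPow_comm {n : ℕ} {t h : W} (ht : Commute t h) (v : V) :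
    ρ h (avgPow ρ n t v) = avgPow ρ n t (ρ h v) := by
  simp only [avgPow, LinearMap.smul_apply, LinearMap.sum_apply, map_smul, map_sum,
    ← rho_mul_apply, (ht.pow_left _).eq]

lemma rho_avgPow {n : ℕ} {t : W} (ht : t ^ n = 1) (v : V) :
    ρ t (avgPow ρ n t v) = avgPow ρ n t v := by
  simp only [avgPow, LinearMap.smul_apply, LinearMap.sum_apply, map_smul, map_sum,
    ← rho_mul_apply, ← pow_succ']
  congr 1
  have h1 := Finset.sum_range_succ' (fun j => ρ (t ^ j) v) n
  rw [Finset.sum_range_succ] at h1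
  simpa [ht] using h1.symm

variable {ι : Type*} (n : ι → ℕ) (t : ι → W)

/-- `∏ p ∈ l, (1 - π p)`. -/
def coprimePart : List ι → Module.End ℂ V
  | [] => 1
  | p :: l => (1 - avgPow ρ (n p) (t p)) * coprimePart l

lemma coprimePart_comm {h : W} :
    ∀ l : List ι, (∀ p ∈ l, Commute (t p) h) → ∀ v : V,
      ρ h (coprimePart ρ n t l v) = coprimePart ρ n t l (ρ h v)
  | [], _, v => rfl
  | p :: l, hl, v => by
    simp only [coprimePart, Module.End.mul_apply, LinearMap.sub_apply, Module.End.one_apply,
      map_sub]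
    rw [rho_avgPow_comm ρ (hl p (List.mem_cons_self ..)),
      coprimePart_comm l fun q hq => hl q (List.mem_cons_of_mem _ hq)]

/-- The abstract main lemma: a vector fixed by `K` and killed by the coprime part along `l` is a
sum over `p` in `l` of vectors fixed by `K` and by `G p`. -/
theorem exists_sum_fixed (G : ι → Subgroup W) [∀ p, Fintype (G p)] (H : ι → Subgroup W)
    (K : Subgroup W) (hHK : ∀ p, H p ≤ K) (hHG : ∀ p, H p ≤ G p) (ht : ∀ p, t p ∈ G p)
    (htn : ∀ p, t p ^ n p = 1)
    (hcomm : ∀ p q, p ≠ q → ∀ a ∈ G p, ∀ b ∈ G q, Commute a b)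
    (hgen : ∀ p (v : V), (∀ h ∈ H p, ρ h v = v) → ρ (t p) v = v → ∀ g ∈ G p, ρ g v = v)
    (hnorm : ∀ p, ∀ k ∈ K, ∀ g ∈ G p, k * g * k⁻¹ ∈ G p) :
    ∀ (l : List ι), l.Nodup → ∀ f : V, (∀ k ∈ K, ρ k f = f) → coprimePart ρ n t l f = 0 →
      ∃ g : ι → V, (∀ p, (∀ k ∈ K, ρ k (g p) = g p) ∧ ∀ x ∈ G p, ρ x (g p) = g p) ∧
        f = (l.map g).sum
  | [], _, f, _, hf => ⟨fun _ => 0, fun p => ⟨fun _ _ => map_zero _, fun _ _ => map_zero _⟩,
      by simpa [coprimePart] using hf⟩
  | a :: l, hl, f, hK, hf => by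
    classical
    obtain ⟨hal, hl'⟩ := List.nodup_cons.1 hl
    have hne : ∀ q ∈ l, q ≠ a := fun q hq he => hal (he ▸ hq)
    -- The coprime part along `l` is fixed by `t a`, hence by all of `G a`.
    set y := coprimePart ρ n t l f with hy
    have hfix : ρ (t a) y = y := by
      have : y = avgPow ρ (n a) (t a) y := by
        simpa [coprimePart, sub_eq_zero] using hf
      rw [this]
      exact rho_avgPow ρ (htn a) _
    have hH : ∀ h ∈ H a, ρ h y = y := fun h hh => by
      rw [hy, coprimePart_comm ρ n t l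
        (fun q hq => hcomm q a (hne q hq) _ (ht q) _ (hHG a hh)), hK h (hHK a hh)]
    have hG : ∀ g ∈ G a, ρ g y = y := hgen a y hH hfix
    -- So the average of `f` over `G a` has the same coprime part; subtract it and recurse.
    set fa := avgSub ρ (G a) f with hfa
    have hK' : ∀ k ∈ K, ρ k fa = fa := fun k hk => by
      rw [hfa, avgSub_comm ρ (G a) (hnorm a k hk)
        (fun g hg => by simpa using hnorm a k⁻¹ (K.inv_mem hk) g hg), hK k hk]
    have hzero : coprimePart ρ n t l (f - fa) = 0 := by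
      have : coprimePart ρ n t l fa = y := by
        have h1 : coprimePart ρ n t l fa = avgSub ρ (G a) y := by
          simp only [hfa, hy, avgSub, LinearMap.smul_apply, LinearMap.sum_apply, map_smul, map_sum]
          congr 1
          refine Finset.sum_congr rfl fun g _ => ?_
          exact (coprimePart_comm ρ n t l
            (fun q hq => hcomm q a (hne q hq) _ (ht q) _ g.2) f).symm
        rw [h1, avgSub_fixed ρ (G a) hG]
      rw [map_sub, this, sub_self]
    obtain ⟨g, hg, hsum⟩ := exists_sum_fixed G H K hHK hHG ht htn hcomm hgen hnorm l hl' (f - fa)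
      (fun k hk => by rw [map_sub, hK k hk, hK' k hk]) hzero
    refine ⟨Function.update g a fa, fun p => ?_, ?_⟩
    · rcases eq_or_ne p a with rfl | hp
      · rw [Function.update_self]
        exact ⟨hK', fun x hx => rho_avgSub ρ (G p) hx f⟩
      · rw [Function.update_of_ne hp]
        exact hg p
    · rw [List.map_cons, List.sum_cons, Function.update_self,
        List.map_congr_left (fun q hq => Function.update_of_ne (hne q hq) fa g), ← hsum]
      abel

end Fermat.Agent.Newforms
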