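import Mathlib.NumberTheory.ModularForms.CongruenceSubgroups
import Mathlib.Tactic

/-!
# The subgroups `Γ⁰(d)` and the local subgroups at the primes dividing the level
-/

set_option autoImplicit false

open CongruenceSubgroup Matrix.SpecialLinearGroup
open scoped MatrixGroups

namespace Fermat.Agent.Newforms

/-- `Γ⁰(d)`: upper right entry divisible by `d`. -/
def gammaUp (d : ℕ) : Subgroup SL(2, ℤ) where
  carrier := {γ | (d : ℤ) ∣ γ 0 1}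
  one_mem' := by simp
  mul_mem' := fun {a b} ha hb => by
    show (d : ℤ) ∣ (a * b) 0 1
    rw [coe_mul, Matrix.mul_apply, Fin.sum_univ_two]
    exact dvd_add (dvd_mul_of_dvd_right hb _) (dvd_mul_of_dvd_left ha _)
  inv_mem' := fun {a} ha => by
    show (d : ℤ) ∣ a⁻¹ 0 1
    rw [SL2_inv_expl]
    simpa using ha

lemma mem_gammaUp {d : ℕ} {γ : SL(2, ℤ)} : γ ∈ gammaUp d ↔ (d : ℤ) ∣ γ 0 1 := Iff.rfl

lemma gammaUp_anti {d e : ℕ} (h : d ∣ e) : gammaUp e ≤ gammaUp d :=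
  fun _ hγ => (Int.natCast_dvd_natCast.2 h).trans hγ

lemma mem_gamma_iff_dvd {m : ℕ} {γ : SL(2, ℤ)} :
    γ ∈ Gamma m ↔ (m : ℤ) ∣ γ 0 0 - 1 ∧ (m : ℤ) ∣ γ 0 1 ∧ (m : ℤ) ∣ γ 1 0 ∧
      (m : ℤ) ∣ γ 1 1 - 1 := by
  simp [Gamma_mem, ← ZMod.intCast_zmod_eq_zero_iff_dvd, sub_eq_zero]

/-- The lower unipotent matrix. -/
def lowerUni (m : ℤ) : SL(2, ℤ) := ⟨!![1, 0; m, 1], by simp [Matrix.det_fin_two_of]⟩

variable (N : ℕ)

/-- The subgroup of `Γ⁰(N/p)` of matrices that are trivial away from `p`. -/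
def localG (p : ℕ) : Subgroup SL(2, ℤ) := gammaUp (N / p) ⊓ Gamma (ordCompl[p] N)

/-- The subgroup of `Γ⁰(N)` of matrices that are trivial away from `p`. -/
def localH (p : ℕ) : Subgroup SL(2, ℤ) := gammaUp N ⊓ Gamma (ordCompl[p] N)

variable {N}

lemma localH_le_localG {p : ℕ} (hpN : p ∣ N) : localH N p ≤ localG N p :=
  inf_le_inf_right _ (gammaUp_anti (Nat.div_dvd_of_dvd hpN))

lemma ordCompl_dvd_div {p : ℕ} (hp : p.Prime) (hN : N ≠ 0) (hpN : p ∣ N) :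
    ordCompl[p] N ∣ N / p := by
  obtain ⟨M, hM⟩ := hpN
  rw [hM, Nat.mul_div_cancel_left M hp.pos, ← hM]
  have h := (Nat.ordCompl_dvd N p)
  rw [hM] at h ⊢
  exact (Nat.Coprime.dvd_mul_left (Nat.coprime_ordCompl hp (hM ▸ hN)).symm).1 h

lemma T_zpow_mem_localG {p : ℕ} (hp : p.Prime) (hN : N ≠ 0) (hpN : p ∣ N) (j : ℤ) :
    ModularGroup.T ^ (j * ((N / p : ℕ) : ℤ)) ∈ localG N p := by
  have h1 : ((N / p : ℕ) : ℤ) ∣ j * ((N / p : ℕ) : ℤ) := dvd_mul_left _ _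
  have h2 : ((ordCompl[p] N : ℕ) : ℤ) ∣ j * ((N / p : ℕ) : ℤ) :=
    (Int.natCast_dvd_natCast.2 (ordCompl_dvd_div hp hN hpN)).trans h1
  refine Subgroup.mem_inf.2 ⟨?_, ?_⟩
  · simp [mem_gammaUp, ModularGroup.coe_T_zpow]
  · rw [mem_gamma_iff_dvd]
    generalize ((ordCompl[p] N : ℕ) : ℤ) = m at h2 ⊢
    simpa [ModularGroup.coe_T_zpow] using h2

/-- `Γ⁰(N/p)` is generated by `Γ⁰(N)`, `localH` and the translations by `N/p`. -/
lemma exists_mul_mem_gammaUp {p : ℕ} (hp : p.Prime) (hN : N ≠ 0) (hpN : p ∣ N) {γ : SL(2, ℤ)}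
    (hγ : γ ∈ gammaUp (N / p)) :
    ∃ h ∈ localH N p, ∃ j : ℤ,
      γ * h * ModularGroup.T ^ (j * ((N / p : ℕ) : ℤ)) ∈ gammaUp N := by
  obtain ⟨b, hb⟩ := mem_gammaUp.1 hγ
  have hNp : (N : ℤ) = ((N / p : ℕ) : ℤ) * p := by
    rw [← Nat.cast_mul, Nat.div_mul_cancel hpN]
  have hp' : Prime (p : ℤ) := Nat.prime_iff_prime_int.1 hp
  -- first make the upper left entry prime to `p`
  obtain ⟨h, hh, ha, hb'⟩ : ∃ h ∈ localH N p, ¬ (p : ℤ) ∣ (γ * h) 0 0 ∧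
      (γ * h) 0 1 = γ 0 1 := by
    by_cases ha : (p : ℤ) ∣ γ 0 0
    · have hb1 : ¬ (p : ℤ) ∣ γ 0 1 := fun hb1 => by
        have hdet := Matrix.det_fin_two (γ : Matrix (Fin 2) (Fin 2) ℤ)
        rw [γ.det_coe] at hdet
        exact hp'.not_dvd_one (hdet ▸ dvd_sub (dvd_mul_of_dvd_left ha _)
          (dvd_mul_of_dvd_left hb1 _))
      refine ⟨lowerUni (ordCompl[p] N : ℕ), Subgroup.mem_inf.2 ⟨?_, ?_⟩, ?_, ?_⟩
      · simp [mem_gammaUp, lowerUni]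
      · rw [mem_gamma_iff_dvd]
        generalize ((ordCompl[p] N : ℕ) : ℤ) = m
        simp [lowerUni]
      · have he : (γ * lowerUni (ordCompl[p] N : ℕ)) 0 0 =
            γ 0 0 + γ 0 1 * ((ordCompl[p] N : ℕ) : ℤ) := by
          simp [lowerUni, Matrix.mul_apply, Fin.sum_univ_two]
        intro hdvd
        rw [he, dvd_add_right ha] at hdvd
        rcases hp'.dvd_or_dvd hdvd with h | h
        · exact hb1 h
        · exact Nat.not_dvd_ordCompl hp hN (Int.natCast_dvd_natCast.1 h)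
      · simp [lowerUni, Matrix.mul_apply, Fin.sum_univ_two]
    · exact ⟨1, one_mem _, by simpa using ha, by simp⟩
  obtain ⟨u, v, huv⟩ := (hp'.coprime_iff_not_dvd.2 ha)
  refine ⟨h, hh, -(b * v), ?_⟩
  rw [mem_gammaUp, coe_mul (γ * h), Matrix.mul_apply, Fin.sum_univ_two]
  simp only [ModularGroup.coe_T_zpow, Matrix.of_apply, Matrix.cons_val', Matrix.cons_val_zero,
    Matrix.cons_val_one, Matrix.cons_val_fin_one]
  refine ⟨b * u, ?_⟩
  rw [hb', hb, hNp]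
  linear_combination (-(((N / p : ℕ) : ℤ)) * b) * huv

/-- The commutator of elements trivial away from distinct primes is trivial mod `N`. -/
lemma commutator_mem_gamma {p q : ℕ} (hp : p.Prime) (hq : q.Prime) (hpq : p ≠ q) (hN : N ≠ 0)
    {a b : SL(2, ℤ)} (ha : a ∈ Gamma (ordCompl[p] N)) (hb : b ∈ Gamma (ordCompl[q] N)) :
    a * b * a⁻¹ * b⁻¹ ∈ Gamma N := by
  have h1 : a * b * a⁻¹ * b⁻¹ ∈ Gamma (ordCompl[p] N) := by
    have := Gamma_normal (ordCompl[p] N)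
    have h := this.conj_mem _ (inv_mem ha) b
    simpa [mul_assoc] using mul_mem ha h
  have h2 : a * b * a⁻¹ * b⁻¹ ∈ Gamma (ordCompl[q] N) := by
    have := Gamma_normal (ordCompl[q] N)
    exact mul_mem (this.conj_mem _ hb a) (inv_mem hb)
  have key : ∀ x : ℤ, ((ordCompl[p] N : ℕ) : ℤ) ∣ x → ((ordCompl[q] N : ℕ) : ℤ) ∣ x →
      (N : ℤ) ∣ x := fun x hx hy => by
    rw [← Nat.ordProj_mul_ordCompl_eq_self N p, Nat.cast_mul]
    have hcop : Nat.Coprime (ordProj[p] N) (ordCompl[p] N) :=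
      Nat.Coprime.pow_left _ (Nat.coprime_ordCompl hp hN)
    refine IsCoprime.mul_dvd (Nat.isCoprime_iff_coprime.2 hcop) ?_ hx
    refine (Int.natCast_dvd_natCast.2 ?_).trans hy
    refine Nat.dvd_ordCompl_of_dvd_not_dvd (Nat.ordProj_dvd N p) fun hd => hpq ?_
    exact ((Nat.prime_dvd_prime_iff_eq hq hp).1 (hq.dvd_of_dvd_pow hd)).symm
  rw [mem_gamma_iff_dvd] at h1 h2 ⊢
  exact ⟨key _ h1.1 h2.1, key _ h1.2.1 h2.2.1, key _ h1.2.2.1 h2.2.2.1,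
    key _ h1.2.2.2 h2.2.2.2⟩

end Fermat.Agent.Newforms
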