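import Fermat.Agent.Newforms.Basic
import Fermat.Prelude.Sol.S_ModularForm_heckeT_slash_eq_self_of_mem_Gamma0

/-!
# The double coset of `diag(1, ℓ)` in `Γ₀(M)`, and operators commuting with `T_ℓ`
-/

set_option autoImplicit false

noncomputable section

open CongruenceSubgroup Matrix.SpecialLinearGroup UpperHalfPlane
open scoped MatrixGroups ModularForm OnePoint

namespace Fermat.Agent.Newforms

open P2MW.S_ModularForm_heckeT_slash_eq_self_of_mem_Gamma0.ModularForm.HeckeSlashInvariance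

/-- An integral matrix, as a real one. -/
abbrev realMat (A : Matrix (Fin 2) (Fin 2) ℤ) : Matrix (Fin 2) (Fin 2) ℝ :=
  A.map (Int.castRingHom ℝ)

/-- The real matrix of an element of `SL₂(ℤ)` is its integral matrix. -/
lemma mapGL_eq_realMat (γ : SL(2, ℤ)) :
    ((mapGL ℝ γ : GL (Fin 2) ℝ) : Matrix (Fin 2) (Fin 2) ℝ) =
      realMat (γ : Matrix (Fin 2) (Fin 2) ℤ) := by
  ext i j
  simp [realMat]

variable {ℓ : ℕ} [Fact ℓ.Prime]

/-- The Hecke representatives are upper triangular integral matrices of determinant `ℓ`. -/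
lemma exists_heckeRep_eq (x : OnePoint (ZMod ℓ)) :
    ∃ A : Matrix (Fin 2) (Fin 2) ℤ, A 1 0 = 0 ∧ A.det = ℓ ∧
      (heckeRep ℓ x : Matrix (Fin 2) (Fin 2) ℝ) = realMat A := by
  have hℓ : ℓ ≠ 0 := (Fact.out : ℓ.Prime).ne_zero
  induction x using OnePoint.rec with
  | infty =>
    refine ⟨!![(ℓ : ℤ), 0; 0, 1], rfl, by simp [Matrix.det_fin_two_of], ?_⟩
    rw [heckeRep_infty, ModularForm.val_heckeDiagMatrix hℓ]
    ext i j; fin_cases i <;> fin_cases j <;> simp [realMat]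
  | coe j =>
    refine ⟨!![1, (j.val : ℤ); 0, (ℓ : ℤ)], rfl, by simp [Matrix.det_fin_two_of], ?_⟩
    rw [heckeRep_coe, ModularForm.val_heckeMatrix hℓ]
    ext i k; fin_cases i <;> fin_cases k <;> simp [realMat]

/-- Every integral matrix of determinant `ℓ` with `M ∣ c` lies in `Γ₀(M)` times a representative. -/
lemma exists_eq_gamma0_mul_heckeRep {M : ℕ} (hℓM : ¬ ℓ ∣ M) (A : Matrix (Fin 2) (Fin 2) ℤ)
    (hc : (M : ℤ) ∣ A 1 0) (hdet : A.det = ℓ) :
    ∃ x : OnePoint (ZMod ℓ), ∃ γ ∈ Gamma0 M,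
      realMat A = ((mapGL ℝ γ : GL (Fin 2) ℝ) : Matrix (Fin 2) (Fin 2) ℝ) * heckeRep ℓ x := by
  have hℓ : ℓ.Prime := Fact.out
  rw [Matrix.det_fin_two] at hdet
  have hdet' : ((A 0 0 : ℤ) : ZMod ℓ) * (A 1 1 : ℤ) - (A 0 1 : ℤ) * (A 1 0 : ℤ) = 0 := by
    have := congrArg (Int.cast : ℤ → ZMod ℓ) hdet
    push_cast at this
    rwa [ZMod.natCast_self] at this
  -- If the first column vanishes mod `ℓ`, divide it by `ℓ`.
  by_cases hac : ((A 0 0 : ℤ) : ZMod ℓ) = 0 ∧ ((A 1 0 : ℤ) : ZMod ℓ) = 0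
  · obtain ⟨a', ha'⟩ := (ZMod.intCast_zmod_eq_zero_iff_dvd _ _).1 hac.1
    obtain ⟨c', hc'⟩ := (ZMod.intCast_zmod_eq_zero_iff_dvd _ _).1 hac.2
    refine ⟨∞, ⟨!![a', A 0 1; c', A 1 1], ?_⟩, ?_, ?_⟩
    · rw [Matrix.det_fin_two_of]
      rw [ha', hc'] at hdet
      refine mul_left_cancel₀ (a := (ℓ : ℤ)) (Int.natCast_ne_zero.2 hℓ.ne_zero) ?_
      linear_combination hdet
    · rw [mem_gamma0_iff_dvd]
      refine IsCoprime.dvd_of_dvd_mul_left
        (Nat.isCoprime_iff_coprime.2 ((hℓ.coprime_iff_not_dvd).2 hℓM).symm) ?_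
      exact hc' ▸ hc
    · rw [heckeRep_infty, mapGL_eq_realMat, ModularForm.val_heckeDiagMatrix hℓ.ne_zero]
      ext i j
      fin_cases i <;> fin_cases j <;>
        simp [realMat, Matrix.mul_apply, Fin.sum_univ_two, ha', hc', mul_comm]
  -- Otherwise the second column is `j` times the first mod `ℓ`.
  · obtain ⟨j, hb, hd⟩ : ∃ j : ZMod ℓ, ((A 0 1 : ℤ) : ZMod ℓ) = (A 0 0 : ℤ) * j ∧
        ((A 1 1 : ℤ) : ZMod ℓ) = (A 1 0 : ℤ) * j := by
      by_cases ha : ((A 0 0 : ℤ) : ZMod ℓ) = 0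
      · have hc0 : ((A 1 0 : ℤ) : ZMod ℓ) ≠ 0 := fun h => hac ⟨ha, h⟩
        refine ⟨(A 1 1 : ℤ) / (A 1 0 : ℤ), ?_, by field_simp⟩
        field_simp
        linear_combination -hdet'
      · refine ⟨(A 0 1 : ℤ) / (A 0 0 : ℤ), by field_simp, ?_⟩
        field_simp
        linear_combination hdet'
    obtain ⟨b', hb'⟩ : (ℓ : ℤ) ∣ A 0 1 - A 0 0 * j.val := by
      rw [← ZMod.intCast_zmod_eq_zero_iff_dvd]
      push_cast
      rw [ZMod.natCast_zmod_val, hb, sub_self]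
    obtain ⟨d', hd'⟩ : (ℓ : ℤ) ∣ A 1 1 - A 1 0 * j.val := by
      rw [← ZMod.intCast_zmod_eq_zero_iff_dvd]
      push_cast
      rw [ZMod.natCast_zmod_val, hd, sub_self]
    refine ⟨j, ⟨!![A 0 0, b'; A 1 0, d'], ?_⟩, mem_gamma0_iff_dvd.2 hc, ?_⟩
    · rw [Matrix.det_fin_two_of]
      refine mul_left_cancel₀ (a := (ℓ : ℤ)) (Int.natCast_ne_zero.2 hℓ.ne_zero) ?_
      linear_combination hdet - (A 0 0) * hd' + (A 1 0) * hb'
    · rw [heckeRep_coe, mapGL_eq_realMat, ModularForm.val_heckeMatrix hℓ.ne_zero]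
      have e1 := congrArg (Int.cast : ℤ → ℝ) hb'
      have e2 := congrArg (Int.cast : ℤ → ℝ) hd'
      push_cast at e1 e2
      ext i k
      fin_cases i <;> fin_cases k <;>
        simp [realMat, Matrix.mul_apply, Fin.sum_univ_two, -ZMod.natCast_val] <;>
        first
          | linear_combination e1
          | linear_combination e2

/-- Distinct representatives lie in distinct cosets. -/
lemma heckeRep_eq_of_mul (g : SL(2, ℤ)) {x y : OnePoint (ZMod ℓ)}
    (h : mapGL ℝ g * heckeRep ℓ x = heckeRep ℓ y) : x = y := by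
  have hℓ : ℓ.Prime := Fact.out
  have h' := congrArg (fun u : GL (Fin 2) ℝ => (u : Matrix (Fin 2) (Fin 2) ℝ)) h
  simp only [Units.val_mul, mapGL_eq_realMat] at h'
  have h00 := congrFun (congrFun h' 0) 0
  have h01 := congrFun (congrFun h' 0) 1
  have h11 := congrFun (congrFun h' 1) 1
  induction x using OnePoint.rec with
  | infty =>
    induction y using OnePoint.rec with
    | infty => rfl
    | coe j =>
      simp [realMat, Matrix.mul_apply, Fin.sum_univ_two, -ZMod.natCast_val,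
        ModularForm.val_heckeMatrix hℓ.ne_zero, ModularForm.val_heckeDiagMatrix hℓ.ne_zero] at h00
      have : g 0 0 * (ℓ : ℤ) = 1 := by exact_mod_cast h00
      exact absurd ⟨g 0 0, by rw [mul_comm]; exact this.symm⟩
        (Nat.prime_iff_prime_int.1 hℓ).not_dvd_one
  | coe i =>
    induction y using OnePoint.rec with
    | infty =>
      simp [realMat, Matrix.mul_apply, Fin.sum_univ_two, -ZMod.natCast_val,
        ModularForm.val_heckeMatrix hℓ.ne_zero,
        ModularForm.val_heckeDiagMatrix hℓ.ne_zero] at h00 h01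
      have e0 : g 0 0 = (ℓ : ℤ) := by exact_mod_cast h00
      have h10 := congrFun (congrFun h' 1) 0
      simp [realMat, Matrix.mul_apply, Fin.sum_univ_two, -ZMod.natCast_val,
        ModularForm.val_heckeMatrix hℓ.ne_zero, ModularForm.val_heckeDiagMatrix hℓ.ne_zero] at h10
      have hdet := Matrix.det_fin_two (g : Matrix (Fin 2) (Fin 2) ℤ)
      rw [g.det_coe, h10, e0, mul_zero, sub_zero] at hdet
      exact absurd ⟨g 1 1, hdet⟩ (Nat.prime_iff_prime_int.1 hℓ).not_dvd_one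
    | coe j =>
      simp [realMat, Matrix.mul_apply, Fin.sum_univ_two, -ZMod.natCast_val,
        ModularForm.val_heckeMatrix hℓ.ne_zero]
        at h00 h01
      have e : g 0 0 * (i.val : ℤ) + g 0 1 * (ℓ : ℤ) = (j.val : ℤ) := by exact_mod_cast h01
      have e0 : g 0 0 = 1 := by exact_mod_cast h00
      have := congrArg (Int.cast : ℤ → ZMod ℓ) e
      push_cast at this
      rw [e0, ZMod.natCast_self, ZMod.natCast_zmod_val, ZMod.natCast_zmod_val] at this
      simpa using this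

/-- `T_ℓ` commutes with a matrix `W` normalising `Γ₀(M)` and the double coset. -/
theorem heckeT_slash_comm {M : ℕ} (hℓM : ¬ ℓ ∣ M) (k : ℤ) (f : ℍ → ℂ)
    (hf : ∀ γ ∈ Gamma0 M, f ∣[k] γ = f) (W : GL (Fin 2) ℝ)
    (hA : ∀ A : Matrix (Fin 2) (Fin 2) ℤ, (M : ℤ) ∣ A 1 0 →
      ∃ A' : Matrix (Fin 2) (Fin 2) ℤ, (M : ℤ) ∣ A' 1 0 ∧ A'.det = A.det ∧
        (W : Matrix (Fin 2) (Fin 2) ℝ) * realMat A = realMat A' * W)
    (hΓ : ∀ γ ∈ Gamma0 M, ∃ γ' ∈ Gamma0 M, mapGL ℝ γ * W = W * mapGL ℝ γ') :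
    ModularForm.heckeT k ℓ (f ∣[k] W) = ModularForm.heckeT k ℓ f ∣[k] W := by
  classical
  have key : ∀ x : OnePoint (ZMod ℓ), ∃ y, ∃ γ ∈ Gamma0 M,
      W * heckeRep ℓ x = mapGL ℝ γ * heckeRep ℓ y * W := by
    intro x
    obtain ⟨A, hA0, hAdet, hAx⟩ := exists_heckeRep_eq x
    obtain ⟨A', hA'0, hA'det, hA'⟩ := hA A (by simp [hA0])
    obtain ⟨y, γ, hγ, hy⟩ := exists_eq_gamma0_mul_heckeRep hℓM A' hA'0 (hA'det.trans hAdet)
    refine ⟨y, γ, hγ, Units.ext ?_⟩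
    rw [Units.val_mul, Units.val_mul, Units.val_mul, hAx, hA', hy]
  choose σ γ hγ hσ using key
  have hinj : Function.Injective σ := by
    intro x y hxy
    have e1 := hσ x
    have e2 := hσ y
    rw [← hxy] at e2
    obtain ⟨δ, -, hδ⟩ := hΓ (γ x * (γ y)⁻¹) (mul_mem (hγ x) (inv_mem (hγ y)))
    refine (heckeRep_eq_of_mul (ℓ := ℓ) δ ?_).symm
    refine mul_left_cancel (a := W) ?_
    rw [e1, ← mul_assoc, ← hδ, mul_assoc, e2, ← mul_assoc, ← mul_assoc, ← map_mul,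
      inv_mul_cancel_right]
  have hfm : ∀ g ∈ Gamma0 M, f ∣[k] mapGL ℝ g = f := hf
  rw [heckeT_eq_sum_onePoint, heckeT_eq_sum_onePoint, SlashAction.sum_slash]
  calc ∑ x, (f ∣[k] W) ∣[k] heckeRep ℓ x
      = ∑ x, (f ∣[k] heckeRep ℓ (σ x)) ∣[k] W := Finset.sum_congr rfl fun x _ => by
        rw [← SlashAction.slash_mul, hσ x, SlashAction.slash_mul, SlashAction.slash_mul,
          hfm _ (hγ x)]
    _ = ∑ x, (f ∣[k] heckeRep ℓ x) ∣[k] W :=
        (Finite.injective_iff_bijective.1 hinj).sum_comp fun x => (f ∣[k] heckeRep ℓ x) ∣[k] W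

end Fermat.Agent.Newforms
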