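import Fermat.Agent.Newforms.Petersson
import Fermat.Agent.Newforms.Newform

/-!
# Semisimplicity of the Hecke operators away from the level
-/

set_option autoImplicit false

noncomputable section

open CongruenceSubgroup
open scoped ComplexConjugate

namespace Fermat.Agent.Newforms

variable {N : ℕ} [NeZero N]

/-- Self-adjointness for the Petersson product. -/
def IsPetersson (T : Module.End ℂ (CuspForm (Gamma0 N) 2)) : Prop :=
  ∀ f g, peterssonInner (T f) g = peterssonInner f (T g)

/-- `T_ℓ` away from the level is self-adjoint for the Petersson product. -/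
lemma isPetersson_hOp {ℓ : ℕ} (hℓ : ℓ.Prime) (hℓN : ¬ ℓ ∣ N) : IsPetersson (hOp N hℓ) := by
  have : Fact ℓ.Prime := ⟨hℓ⟩
  rw [hOp_eq_heckeTLin hℓ hℓN]
  exact peterssonInner_heckeT hℓ hℓN

lemma peterssonInner_zero_left (g : CuspForm (Gamma0 N) 2) : peterssonInner 0 g = 0 := by
  have := peterssonInner_smul_left (0 : ℂ) (0 : CuspForm (Gamma0 N) 2) g
  simpa using this

lemma peterssonInner_zero_right (g : CuspForm (Gamma0 N) 2) : peterssonInner g 0 = 0 := by
  have := peterssonInner_smul_right (0 : ℂ) g (0 : CuspForm (Gamma0 N) 2)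
  simpa using this

/-- Eigenvalues of self-adjoint operators are real. -/
lemma IsPetersson.conj_eigenvalue {T : Module.End ℂ (CuspForm (Gamma0 N) 2)} (hT : IsPetersson T)
    {f : CuspForm (Gamma0 N) 2} (hf : f ≠ 0) {c : ℂ} (h : T f = c • f) : conj c = c := by
  have he := hT f f
  rw [h, peterssonInner_smul_left, peterssonInner_smul_right] at he
  exact mul_right_cancel₀ (fun h0 => hf (peterssonInner_self_eq_zero h0)) he

lemma IsPetersson.sub_smul_one {T : Module.End ℂ (CuspForm (Gamma0 N) 2)} (hT : IsPetersson T)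
    {c : ℂ} (hc : conj c = c) : IsPetersson (T - c • 1) := fun f g => by
  have e1 : (T - c • 1) f = T f + (-c) • f := by simp [sub_eq_add_neg]
  have e2 : (T - c • 1) g = T g + (-c) • g := by simp [sub_eq_add_neg]
  rw [e1, e2, peterssonInner_add_left, peterssonInner_add_right, peterssonInner_smul_left,
    peterssonInner_smul_right, map_neg, hc, hT f g]

/-- A self-adjoint operator killing `f` in some power kills `f`. -/
lemma IsPetersson.eq_zero_of_pow {T : Module.End ℂ (CuspForm (Gamma0 N) 2)} (hT : IsPetersson T)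
    {f : CuspForm (Gamma0 N) 2} : ∀ {n : ℕ}, (T ^ n) f = 0 → T f = 0
  | 0, h => by
    simp only [pow_zero, Module.End.one_apply] at h
    rw [h, map_zero]
  | 1, h => by simpa using h
  | n + 2, h => by
    refine hT.eq_zero_of_pow (n := n + 1) (peterssonInner_self_eq_zero ?_)
    conv_lhs => arg 1; rw [pow_succ', Module.End.mul_apply]
    rw [hT]
    rw [← Module.End.mul_apply, ← pow_succ', h, peterssonInner_zero_right]

/-- Generalised eigenvectors of self-adjoint operators are eigenvectors. -/
lemma IsPetersson.eigen_of_genEigen {T : Module.End ℂ (CuspForm (Gamma0 N) 2)} (hT : IsPetersson T)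
    {f : CuspForm (Gamma0 N) 2} {c : ℂ} {n : ℕ} (h : ((T - c • 1) ^ n) f = 0) : T f = c • f := by
  classical
  rcases eq_or_ne f 0 with rfl | hf
  · simp
  have hex : ∃ n, ((T - c • (1 : Module.End ℂ (CuspForm (Gamma0 N) 2))) ^ n) f = 0 := ⟨n, h⟩
  obtain ⟨m, hm⟩ : ∃ m, Nat.find hex = m + 1 := Nat.exists_eq_succ_of_ne_zero fun h0 => by
    simpa [h0, hf] using Nat.find_spec hex
  have hv : T (((T - c • (1 : Module.End ℂ (CuspForm (Gamma0 N) 2))) ^ m) f) =
      c • ((T - c • (1 : Module.End ℂ (CuspForm (Gamma0 N) 2))) ^ m) f := by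
    have := Nat.find_spec hex
    rw [hm, pow_succ', Module.End.mul_apply] at this
    simpa [sub_eq_zero] using this
  have hc := hT.conj_eigenvalue (Nat.find_min hex (by omega)) hv
  simpa [sub_eq_zero] using (hT.sub_smul_one hc).eq_zero_of_pow h

/-- The elements of the Hecke algebra away from `S`, `S` containing the primes of the level, are
self-adjoint. -/
lemma isPetersson_of_mem_heckeAlgebra {S : Set ℕ} (hS : ∀ q : ℕ, q.Prime → q ∣ N → q ∈ S)
    (t : CuspForm.heckeAlgebra N 2 S) : IsPetersson t.1 := by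
  have hcomm : ∀ a b : CuspForm.heckeAlgebra N 2 S, Commute a.1 b.1 := fun a b => by
    show a.1 * b.1 = b.1 * a.1
    rw [← Subalgebra.coe_mul, ← Subalgebra.coe_mul, mul_comm]
  obtain ⟨t, ht⟩ := t
  induction ht using Algebra.adjoin_induction with
  | mem x hx =>
    rcases hx with ⟨ℓ, hℓ, hℓN, -, rfl⟩ | ⟨q, hqN, hq, hqS, rfl⟩
    · have : Fact ℓ.Prime := ⟨hℓ⟩
      exact peterssonInner_heckeT hℓ hℓN
    · exact absurd (hS q hq hqN) hqS
  | algebraMap z =>
    intro f g
    show peterssonInner (algebraMap ℤ (Module.End ℂ (CuspForm (Gamma0 N) 2)) z f) g =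
      peterssonInner f (algebraMap ℤ (Module.End ℂ (CuspForm (Gamma0 N) 2)) z g)
    simp only [eq_intCast, Module.End.intCast_apply]
    rw [← Int.cast_smul_eq_zsmul ℂ, ← Int.cast_smul_eq_zsmul ℂ, peterssonInner_smul_left,
      peterssonInner_smul_right, map_intCast]
  | add a b _ _ iha ihb =>
    intro f g
    simp only [LinearMap.add_apply, peterssonInner_add_left, peterssonInner_add_right, iha f g,
      ihb f g]
  | mul a b ha hb iha ihb =>
    intro f g
    rw [Module.End.mul_apply, Module.End.mul_apply, iha, ihb, ← Module.End.mul_apply,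
      ← Module.End.mul_apply, (hcomm ⟨b, hb⟩ ⟨a, ha⟩).eq]

/-- The space is spanned by common eigenvectors of the `T_ℓ`, `ℓ ∤ N`. -/
theorem span_eigenvectors_eq_top :
    Submodule.span ℂ {f : CuspForm (Gamma0 N) 2 |
      ∀ ℓ (hℓ : ℓ.Prime), ¬ ℓ ∣ N → ∃ c : ℂ, hOp N hℓ f = c • f} = ⊤ := by
  classical
  have := IntegralStructure.finiteDimensional_cuspForm N 2
  set W := Submodule.span ℂ {f : CuspForm (Gamma0 N) 2 |
    ∀ ℓ (hℓ : ℓ.Prime), ¬ ℓ ∣ N → ∃ c : ℂ, hOp N hℓ f = c • f} with hW
  let b := Module.finBasis ℂ W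
  -- It suffices that pairing against `W` is injective.
  let L : CuspForm (Gamma0 N) 2 →ₗ[ℂ] (Fin (Module.finrank ℂ W) → ℂ) :=
    { toFun := fun h i => peterssonInner (b i : CuspForm (Gamma0 N) 2) h
      map_add' := fun x y => funext fun i => peterssonInner_add_right _ x y
      map_smul' := fun c x => funext fun i => peterssonInner_smul_right c _ x }
  have hker : ∀ h, L h = 0 → ∀ w ∈ W, peterssonInner w h = 0 := by
    intro h hh w hw
    let M : Submodule ℂ (CuspForm (Gamma0 N) 2) :=
      { carrier := {w | peterssonInner w h = 0}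
        zero_mem' := peterssonInner_zero_left h
        add_mem' := fun {x y} hx hy => by
          show peterssonInner (x + y) h = 0
          rw [peterssonInner_add_left, hx, hy, add_zero]
        smul_mem' := fun c x hx => by
          show peterssonInner (c • x) h = 0
          rw [peterssonInner_smul_left, hx, mul_zero] }
    have hsum : w = ∑ i, b.repr ⟨w, hw⟩ i • (b i : CuspForm (Gamma0 N) 2) := by
      have := congrArg Subtype.val (b.sum_repr ⟨w, hw⟩)
      rw [Submodule.coe_sum] at this
      exact this.symm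
    rw [hsum]
    exact M.sum_mem fun i _ => M.smul_mem _ (congrFun hh i)
  have hinj : Function.Injective L := by
    -- Otherwise the orthogonal `U` of `W` is stable, so has an eigenvector.
    refine (injective_iff_map_eq_zero L).2 fun h hh => by_contra fun h0 => ?_
    let U : Submodule ℂ (CuspForm (Gamma0 N) 2) :=
      { carrier := {x | ∀ w ∈ W, peterssonInner w x = 0}
        zero_mem' := fun w _ => peterssonInner_zero_right w
        add_mem' := fun {x y} hx hy w hw => by
          rw [peterssonInner_add_right, hx w hw, hy w hw, add_zero]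
        smul_mem' := fun c x hx w hw => by
          rw [peterssonInner_smul_right, hx w hw, mul_zero] }
    let S : Set ℕ := {q | q ∣ N}
    have hU : U ≠ ⊥ := (Submodule.ne_bot_iff _).2 ⟨h, hker h hh, h0⟩
    let ρ : ↥(CuspForm.heckeAlgebra N 2 S) →+* Module.End ℂ (CuspForm (Gamma0 N) 2) :=
      (CuspForm.heckeAlgebra N 2 S).val.toRingHom
    have hWinv : ∀ t : CuspForm.heckeAlgebra N 2 S, ∀ w ∈ W, t.1 w ∈ W := by
      intro t w hw
      rw [hW] at hw ⊢
      induction hw using Submodule.span_induction with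
      | mem x hx =>
        refine Submodule.subset_span fun ℓ hℓ hℓN => ?_
        obtain ⟨c, hc⟩ := hx ℓ hℓ hℓN
        refine ⟨c, ?_⟩
        have hcomm : hOp N hℓ * t.1 = t.1 * hOp N hℓ := by
          rw [hOp_eq_heckeTLin hℓ hℓN, ← CuspForm.heckeAlgebra.coe_T (S := S) hℓ hℓN hℓN,
            ← Subalgebra.coe_mul, ← Subalgebra.coe_mul, mul_comm]
        rw [← Module.End.mul_apply, hcomm, Module.End.mul_apply, hc, map_smul]
      | zero => rw [map_zero]; exact zero_mem _
      | add x y _ _ hx hy => rw [map_add]; exact add_mem hx hy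
      | smul c x _ hx => rw [map_smul]; exact Submodule.smul_mem _ c hx
    obtain ⟨θ, v, hvU, hv, heig⟩ := HeckeDuality.exists_eigenCharacter ρ U hU fun t x hx w hw => by
      show peterssonInner w (t.1 x) = 0
      rw [← isPetersson_of_mem_heckeAlgebra (fun q _ hq => hq) t w x]
      exact hx _ (hWinv t w hw)
    -- It lies in `W` and is orthogonal to it, hence is `0`.
    refine hv (peterssonInner_self_eq_zero (hvU v (Submodule.subset_span fun ℓ hℓ hℓN => ?_)))
    refine ⟨θ (CuspForm.heckeAlgebra.T hℓ hℓN hℓN), ?_⟩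
    rw [hOp_eq_heckeTLin hℓ hℓN, ← CuspForm.heckeAlgebra.coe_T (S := S) hℓ hℓN hℓN]
    exact heig (CuspForm.heckeAlgebra.T hℓ hℓN hℓN)
  refine Submodule.eq_top_of_finrank_eq (le_antisymm (Submodule.finrank_le W) ?_)
  simpa using LinearMap.finrank_le_finrank_of_injective hinj

end Fermat.Agent.Newforms
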